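/-
S44 / DEPTH (architect helper219): SKELETON of the abstract part.  WIP: statements only.
Each `sorry` is a task DEPTH-xx; the final file of the task is named in the task.
-/
import Fermat.Agent.S44.Depth.Defs

set_option autoImplicit false

noncomputable section

namespace Fermat.Agent.S44.Depth

open Fermat.Agent.S18 Fermat.Agent.S36.BP Polynomial

variable {K F : Type*} [Field K] [Field F] [Algebra K F]
variable {A : ValuationSubring K} {ϖ : K} {e : ℕ} {Vi V0 : ValuationSubring F} {x y : F}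
  {Smi Sm0 Nd : Set (Subring F)} {R : Subring F}

/-! ### D1 : KRULL -/

/-- D1a. -/
theorem krull_node (hA : IsUnif A ϖ) (hN : IsNode A ϖ Vi V0 x y R) {f : F} (hi : f ∈ Vi)
    (h0 : f ∈ V0) (hW : ∀ W : ValuationSubring F, Hor K R W → f ∈ W) : f ∈ R := sorry

/-- D1b. -/
theorem krull_sm {V : ValuationSubring F} (hA : IsUnif A ϖ) (hS : IsSm A ϖ V R) {f : F}
    (hV : f ∈ V) (hW : ∀ W : ValuationSubring F, Hor K R W → f ∈ W) : f ∈ R := sorry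

/-! ### D2 : local factorisation at a node -/

/-- D2a: `𝔪_R = (x, y, ϖ)`. -/
theorem rad_eq (M : NodalModel A ϖ e Vi V0 x y Smi Sm0 Nd) (hR : R ∈ Nd) {r : F}
    (hr : r ∈ rad R) : ∃ a ∈ R, ∃ b ∈ R, ∃ c ∈ R, r = a * x + b * y + c * algebraMap K F ϖ := sorry

/-- D2N (Nakayama): if `R / I` is a finite `A`-module then `A[x, y] → R / I` is surjective. -/
theorem poly_surj (M : NodalModel A ϖ e Vi V0 x y Smi Sm0 Nd) (hR : R ∈ Nd) (I : Ideal R)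
    (hI : I ≠ ⊤)
    (hfin : ∃ S : Finset F, (∀ s ∈ S, s ∈ R) ∧ ∀ r : R, ∃ c : F → K, (∀ s, c s ∈ A) ∧
      ∃ t ∈ I, (r : F) = ∑ s ∈ S, algebraMap K F (c s) * s + (t : F)) :
    ∀ r : R, ∃ q ∈ Axy A x y, ∃ t ∈ I, (r : F) = q + (t : F) := sorry

/-- D2G: the horizontal prime `R ∩ 𝔪_W` is generated by its intersection with `A[x, y]`. -/
theorem hor_gen (M : NodalModel A ϖ e Vi V0 x y Smi Sm0 Nd) (hR : R ∈ Nd)
    {W : ValuationSubring F} (hW : Hor K R W) {r : F} (hr : r ∈ R) (hrW : W.valuation r < 1) :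
    ∃ (n : ℕ) (a q : Fin n → F), (∀ i, a i ∈ R) ∧ (∀ i, q i ∈ Axy A x y) ∧
      (∀ i, W.valuation (q i) < 1) ∧ r = ∑ i, a i * q i := sorry

/-- D2M: the minimal polynomial of `x` modulo `𝔪_W`. -/
theorem hor_minpoly (M : NodalModel A ϖ e Vi V0 x y Smi Sm0 Nd) (hR : R ∈ Nd)
    {W : ValuationSubring F} (hW : Hor K R W) :
    ∃ P : K[X], P.Monic ∧ (∀ i, P.coeff i ∈ A) ∧ W.valuation (aeval x P) < 1 ∧
      ∀ Q : K[X], W.valuation (aeval x Q) < 1 → P ∣ Q := sorry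

/-- D2V: a monic polynomial in `x` with integral coefficients is a unit on `C_∞`. -/
theorem val_aeval_monic (M : NodalModel A ϖ e Vi V0 x y Smi Sm0 Nd) (hR : R ∈ Nd) {P : K[X]}
    (hP : P.Monic) (hc : ∀ i, P.coeff i ∈ A) : aeval x P ∈ R ∧ Vi.valuation (aeval x P) = 1 := sorry

/-- D2D: `R ∩ 𝔪_W ⊆ P(x) R[1/ϖ]`. -/
theorem hor_div (M : NodalModel A ϖ e Vi V0 x y Smi Sm0 Nd) (hR : R ∈ Nd)
    {W : ValuationSubring F} (hW : Hor K R W) {P : K[X]} (hP : P.Monic)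
    (hPW : W.valuation (aeval x P) < 1) (hmin : ∀ Q : K[X], W.valuation (aeval x Q) < 1 → P ∣ Q)
    {r : F} (hr : r ∈ R) (hrW : W.valuation r < 1) :
    ∃ m : ℕ, algebraMap K F ϖ ^ m * r / aeval x P ∈ R := sorry

/-- D2U: **horizontal primes are principal up to `C_0`.** -/
theorem hor_unif (M : NodalModel A ϖ e Vi V0 x y Smi Sm0 Nd) (hR : R ∈ Nd)
    {W : ValuationSubring F} (hW : Hor K R W) :
    ∃ t ∈ R, IsUnif W t ∧ Vi.valuation t = 1 ∧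
      (∀ z ∈ W, ∃ s ∈ R, W.valuation s = 1 ∧ s * z ∈ R) ∧
      ∀ W' : ValuationSubring F, Hor K R W' → W'.valuation t < 1 → W' = W := sorry

/-- D2F: finiteness of the horizontal support. -/
theorem hor_finite (M : NodalModel A ϖ e Vi V0 x y Smi Sm0 Nd) (hR : R ∈ Nd) {u : F}
    (hu : u ≠ 0) : {W : ValuationSubring F | Hor K R W ∧ W.valuation u ≠ 1}.Finite := sorry

/-- D2B: the order on the branch `C_∞`. -/
theorem branch_ord (M : NodalModel A ϖ e Vi V0 x y Smi Sm0 Nd) (hR : R ∈ Nd) {z : F}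
    (hz : Vi.valuation z = 1) : ∃ (b : ℤ) (ρ : F), RUnit R ρ ∧ Vi.valuation (z / x ^ b - ρ) < 1 :=
  sorry

/-- D2: **local factorisation at a node.** -/
theorem lf_node (M : NodalModel A ϖ e Vi V0 x y Smi Sm0 Nd) (hR : R ∈ Nd) {n : ℕ} (hn : n ≠ 0)
    {u : F} (hu : u ≠ 0) (hd : HorDiv K n u) : ∃ b : ℤ, NodeShape K Vi x R n u b := sorry

/-- D2S: local factorisation at a smooth point (`R` is factorial: `ufd_of_through_princ`). -/
theorem lf_sm {V : ValuationSubring F} (hA : IsUnif A ϖ) (hV : IsUnif V (algebraMap K F ϖ))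
    (hS : IsSm A ϖ V R) {n : ℕ} (hn : n ≠ 0) {u : F} (hu : u ≠ 0) (hd : HorDiv K n u) :
    SmShape K V R n u := sorry

/-! ### D3 : the one-constant lemma -/

/-- D3. -/
theorem one_lemma (M : NodalModel A ϖ e Vi V0 x y Smi Sm0 Nd) {C : ℕ} (hC : 1 ≤ C) {h : F}
    (h0 : h ≠ 0) (γ : Subring F → F) (η : Subring F → K) (hη : ∀ R ∈ Nd, η R ∈ A)
    (hunit : ∀ R ∈ Smi ∪ Sm0 ∪ Nd, RUnit R (h / γ R))
    (hSmi : ∀ R ∈ Smi, Dp Vi (algebraMap K F ϖ) (C + 1) (γ R - 1))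
    (hSm0 : ∀ R ∈ Sm0, Dp V0 (algebraMap K F ϖ) (C + 1) (γ R - 1))
    (hNdi : ∀ R ∈ Nd, Dp Vi (algebraMap K F ϖ) (C + 1) (γ R - 1))
    (hNd0 : ∀ R ∈ Nd, Dp V0 (algebraMap K F ϖ) (C + 1)
      (γ R - 1 - algebraMap K F (ϖ ^ C * η R))) :
    ∃ c ∈ A, ∀ R ∈ Nd, A.valuation (η R - c) < 1 := sorry

/-! ### D4 : ramification -/

/-- D4. -/
theorem ram_quot {V : ValuationSubring F} {ϖF δF : F} (hV : IsUnif V ϖF) (τ : F ≃+* F) {c : ℕ}
    (hc : 1 ≤ c) (hτ : τ ϖF = ϖF * (1 + δF)) (hδ : Dp V ϖF c δF)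
    (hram : ∀ z ∈ V, Dp V ϖF (c + 1) (τ z - z)) {g : F} {ν : ℤ}
    (hg : V.valuation g = V.valuation ϖF ^ ν) :
    Dp V ϖF (c + 1) (τ g / g - 1 - (ν : F) * δF) := sorry

/-! ### D5 : tame depth -/

/-- D5a. -/
theorem tame_sm {V : ValuationSubring F} (hA : IsUnif A ϖ) (hV : IsUnif V (algebraMap K F ϖ))
    (hS : IsSm A ϖ V R) {p : ℕ} (hp : p.Prime) (hpA : A.valuation (p : K) < 1) {u : F}
    (hu : V.valuation (u - 1) < 1) (hd : HorDiv K p u) :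
    ∃ g : F, RUnit R (u / g ^ p) ∧ V.valuation (g - 1) < 1 := sorry

/-- D5b. -/
theorem tame_node (M : NodalModel A ϖ e Vi V0 x y Smi Sm0 Nd) (hR : R ∈ Nd) {p : ℕ}
    (hp : p.Prime) (hpA : A.valuation (p : K) < 1) {u : F} (hui : Vi.valuation (u - 1) < 1)
    (hu0 : V0.valuation (u - 1) < 1) (hd : HorDiv K p u) :
    ∃ g : F, RUnit R (u / g ^ p) ∧ Vi.valuation (g - 1) < 1 ∧ V0.valuation (g - 1) < 1 := sorry

/-! ### D6 : slopes -/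

/-- D6t: the tame case. -/
theorem slope_tame (M : NodalModel A ϖ e Vi V0 x y Smi Sm0 Nd) {p : ℕ} (hp : p.Prime)
    (he : ¬ p ∣ e) {u : F} (hu : u ≠ 0) (hd : HorDiv K p u) :
    ∃ b₀ : ℤ, ∀ R ∈ Nd, ∃ b : ℤ, NodeShape K Vi x R p u b ∧ (p : ℤ) ∣ b - b₀ := sorry

/-- D6: **the slopes are constant modulo `p`.** -/
theorem slope (M : NodalModel A ϖ e Vi V0 x y Smi Sm0 Nd) {p : ℕ} (hp : p.Prime)
    (hpA : A.valuation (p : K) < 1) (he : ¬ p ^ 2 ∣ e) {τ : F ≃+* F} {δ : K} {c : ℕ}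
    (T : RamAut A ϖ Vi V0 x (Smi ∪ Sm0 ∪ Nd) τ δ c) {u uy h : F} {cst : K} (hu : u ≠ 0)
    (hd : HorDiv K p u) (hrel : τ u = u * uy * algebraMap K F cst * h ^ p)
    (hSmi : ∀ R ∈ Smi, ∃ g : F, RUnit R (uy / g ^ p) ∧ Dp Vi (algebraMap K F ϖ) (c + 1) (g - 1))
    (hSm0 : ∀ R ∈ Sm0, ∃ g : F, RUnit R (uy / g ^ p) ∧ Dp V0 (algebraMap K F ϖ) (c + 1) (g - 1))
    (hNd : ∀ R ∈ Nd, ∃ g : F, RUnit R (uy / g ^ p) ∧ Dp Vi (algebraMap K F ϖ) (c + 1) (g - 1) ∧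
      Dp V0 (algebraMap K F ϖ) (c + 1) (g - 1)) :
    ∃ b₀ : ℤ, ∀ R ∈ Nd, ∃ b : ℤ, NodeShape K Vi x R p u b ∧ (p : ℤ) ∣ b - b₀ := sorry

/-! ### D7 : normalisation of the toric class -/

/-- D7. -/
theorem toric_normal (M : NodalModel A ϖ e Vi V0 x y Smi Sm0 Nd) {p : ℕ} (hp : p.Prime)
    (hroot : ∀ a ∈ A, ∃ b ∈ A, A.valuation (a - b ^ p) < 1) (σ : F ≃+* F)
    (hσc : ∀ a : K, ∃ a' : K, σ (algebraMap K F a) = algebraMap K F a' ∧
      A.valuation a' = A.valuation a)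
    (hσi : ∀ z ∈ Vi, Vi.valuation (σ z - z) < 1) (hσ0 : ∀ z ∈ V0, V0.valuation (σ z - z) < 1)
    {u h : F} {cst : K} {m : ℕ} (hu : u ≠ 0) (hm : ¬ (p : ℤ) ∣ (m : ℤ) - 1)
    (hrel : σ u = u ^ m * algebraMap K F cst * h ^ p) :
    ∃ (κ : K) (g : F), κ ≠ 0 ∧ g ≠ 0 ∧ Vi.valuation (u * algebraMap K F κ * g ^ p - 1) < 1 ∧
      V0.valuation (u * algebraMap K F κ * g ^ p - 1) < 1 := sorry

end Fermat.Agent.S44.Depth

end
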