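/-
S44 / DEPTH (architect helper219): SKELETON of the base change block BC.  WIP: statements only.
-/
import Fermat.Agent.S44.Depth.BCDefs

set_option autoImplicit false

noncomputable section

namespace Fermat.Agent.S44.Depth

open Fermat.Agent.S18 Fermat.Agent.S36.BP

/-! ### BC1 : Eisenstein extensions of discrete valuation rings (one pair of fields) -/

section Pair

variable {E₀ E : Type*} [Field E₀] [Field E] [Algebra E₀ E] {V₀ : ValuationSubring E₀} {ϖ₀ : E₀}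
  {ϖ : E} {e : ℕ} {a : ℕ → E₀} {V : ValuationSubring E}

theorem eis_val_pow (hU : IsUnif V₀ ϖ₀) (hE : IsEis V₀ ϖ₀ ϖ e a) (hV : Ext V₀ V) :
    V.valuation ϖ ^ e = V.valuation (algebraMap E₀ E ϖ₀) := sorry

theorem eis_mem_iff (hU : IsUnif V₀ ϖ₀) (hE : IsEis V₀ ϖ₀ ϖ e a) (hV : Ext V₀ V) (c : ℕ → E₀) :
    esum ϖ e c ∈ V ↔ ∀ i < e, c i ∈ V₀ := sorry

theorem eis_lt_iff (hU : IsUnif V₀ ϖ₀) (hE : IsEis V₀ ϖ₀ ϖ e a) (hV : Ext V₀ V) (c : ℕ → E₀) :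
    V.valuation (esum ϖ e c) < 1 ↔ (∀ i < e, c i ∈ V₀) ∧ V₀.valuation (c 0) < 1 := sorry

theorem eis_indep (hU : IsUnif V₀ ϖ₀) (hE : IsEis V₀ ϖ₀ ϖ e a) (hV : Ext V₀ V) (c : ℕ → E₀)
    (h : esum ϖ e c = 0) : ∀ i < e, c i = 0 := sorry

theorem eis_unif (hU : IsUnif V₀ ϖ₀) (hE : IsEis V₀ ϖ₀ ϖ e a) (hV : Ext V₀ V) : IsUnif V ϖ := sorry

/-- uniqueness of the extension -/
theorem eis_ext_unique (hU : IsUnif V₀ ϖ₀) (hE : IsEis V₀ ϖ₀ ϖ e a) (hV : Ext V₀ V)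
    {V' : ValuationSubring E} (hV' : Ext V₀ V') : V' = V := sorry

/-- existence of the extension -/
theorem exists_ext (V₀ : ValuationSubring E₀) : ∃ V : ValuationSubring E, Ext V₀ V := sorry

/-- BC2 -/
theorem mem_liftR_iff (hE : IsEis V₀ ϖ₀ ϖ e a) (R₀ : Subring E₀) (ha : ∀ i, a i ∈ R₀) (z : E) :
    z ∈ liftR ϖ R₀ ↔ ∃ c : ℕ → E₀, (∀ i, c i ∈ R₀) ∧ z = esum ϖ e c := sorry

end Pair

variable {K₀ K F₀ F : Type*} [Field K₀] [Field K] [Field F₀] [Field F]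
  [Algebra K₀ K] [Algebra K₀ F₀] [Algebra K F] [Algebra F₀ F]
  {A₀ : ValuationSubring K₀} {ϖ₀ : K₀} {A : ValuationSubring K} {ϖ : K} {e : ℕ} {a : ℕ → K₀}

/-- the Eisenstein datum over a vertical valuation ring of `F₀` -/
theorem BCData.isEisF (H : BCData A₀ ϖ₀ A ϖ e a F₀ F) {V₀ : ValuationSubring F₀}
    (hc : ∀ c ∈ A₀, algebraMap K₀ F₀ c ∈ V₀) :
    IsEis V₀ (algebraMap K₀ F₀ ϖ₀) (algebraMap K F ϖ) e (fun i => algebraMap K₀ F₀ (a i)) := sorry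

/-! ### BC3 : the local rings -/

section Pt

variable {R₀ : Subring F₀} {ι : Type*} [Nonempty ι] {V₀ : ι → ValuationSubring F₀}
  {V : ι → ValuationSubring F}

/-- BC3a: the maximal ideal of `R₀[ϖ]`. -/
theorem mem_rad_liftR_iff (H : BCData A₀ ϖ₀ A ϖ e a F₀ F) (hR₀ : IsPt A₀ R₀) (c : ℕ → F₀)
    (hc : ∀ i, c i ∈ R₀) :
    esum (algebraMap K F ϖ) e c ∈ rad (liftR (algebraMap K F ϖ) R₀) ↔ c 0 ∈ rad R₀ := sorry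

/-- BC3b: `R₀[ϖ]` is noetherian. -/
theorem lift_noeth (H : BCData A₀ ϖ₀ A ϖ e a F₀ F) (hR₀ : IsPt A₀ R₀) :
    IsNoetherianRing (liftR (algebraMap K F ϖ) R₀) := sorry

/-- BC3c: bounded denominators (trace form). -/
theorem lift_denom [CharZero F₀] (H : BCData A₀ ϖ₀ A ϖ e a F₀ F) (hR₀ : IsPt A₀ R₀)
    (hU : ∀ j, IsUnif (V₀ j) (algebraMap K₀ F₀ ϖ₀)) (hext : ∀ j, Ext (V₀ j) (V j))
    (hle : ∀ j, ∀ r ∈ R₀, r ∈ V₀ j) (c : ℕ → F₀)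
    (hz : IsIntegral (liftR (algebraMap K F ϖ) R₀) (esum (algebraMap K F ϖ) e c)) :
    ∃ N : ℕ, ∀ i < e, algebraMap K₀ F₀ ϖ₀ ^ N * c i ∈ R₀ := sorry

/-- BC3d: `R₀[ϖ]` is integrally closed. -/
theorem lift_intClosed [CharZero F₀] (H : BCData A₀ ϖ₀ A ϖ e a F₀ F) (hR₀ : IsPt A₀ R₀)
    (hU : ∀ j, IsUnif (V₀ j) (algebraMap K₀ F₀ ϖ₀)) (hext : ∀ j, Ext (V₀ j) (V j))
    (hle : ∀ j, ∀ r ∈ R₀, r ∈ V₀ j)
    (hqep : ∀ z : F₀, algebraMap K₀ F₀ ϖ₀ * z ∈ R₀ → (∀ j, z ∈ V₀ j) → z ∈ R₀)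
    (z : F) (hz : IsIntegral (liftR (algebraMap K F ϖ) R₀) z) :
    z ∈ liftR (algebraMap K F ϖ) R₀ := sorry

/-- BC3: `R₀[ϖ]` is a point. -/
theorem lift_isPt [CharZero F₀] (H : BCData A₀ ϖ₀ A ϖ e a F₀ F) (hR₀ : IsPt A₀ R₀)
    (hU : ∀ j, IsUnif (V₀ j) (algebraMap K₀ F₀ ϖ₀)) (hext : ∀ j, Ext (V₀ j) (V j))
    (hle : ∀ j, ∀ r ∈ R₀, r ∈ V₀ j)
    (hqep : ∀ z : F₀, algebraMap K₀ F₀ ϖ₀ * z ∈ R₀ → (∀ j, z ∈ V₀ j) → z ∈ R₀) :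
    IsPt A (liftR (algebraMap K F ϖ) R₀) := sorry

/-- BC4: the `q`-expansion principle for `R₀[ϖ]`. -/
theorem lift_qep (H : BCData A₀ ϖ₀ A ϖ e a F₀ F) (hR₀ : IsPt A₀ R₀)
    (hU : ∀ j, IsUnif (V₀ j) (algebraMap K₀ F₀ ϖ₀)) (hext : ∀ j, Ext (V₀ j) (V j))
    (hle : ∀ j, ∀ r ∈ R₀, r ∈ V₀ j)
    (hqep : ∀ z : F₀, algebraMap K₀ F₀ ϖ₀ * z ∈ R₀ → (∀ j, z ∈ V₀ j) → z ∈ R₀)
    (z : F) (hz : algebraMap K F ϖ * z ∈ liftR (algebraMap K F ϖ) R₀) (hV : ∀ j, z ∈ V j) :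
    z ∈ liftR (algebraMap K F ϖ) R₀ := sorry

end Pt

section One

variable {R₀ : Subring F₀} {V₀ : ValuationSubring F₀} {V : ValuationSubring F}

/-- BC5a. -/
theorem lift_dvr (H : BCData A₀ ϖ₀ A ϖ e a F₀ F) (hR₀ : IsPt A₀ R₀)
    (hU : IsUnif V₀ (algebraMap K₀ F₀ ϖ₀)) (hext : Ext V₀ V) (hle : ∀ r ∈ R₀, r ∈ V₀) {t₀ : F₀}
    (h : ∀ r ∈ rad R₀, ∃ s ∈ R₀, V₀.valuation (r - s * t₀) < 1) :
    ∀ r ∈ rad (liftR (algebraMap K F ϖ) R₀), ∃ s ∈ liftR (algebraMap K F ϖ) R₀,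
      V.valuation (r - s * algebraMap F₀ F t₀) < 1 := sorry

/-- BC5. -/
theorem lift_through (H : BCData A₀ ϖ₀ A ϖ e a F₀ F) (hR₀ : IsPt A₀ R₀)
    (hU : IsUnif V₀ (algebraMap K₀ F₀ ϖ₀)) (hext : Ext V₀ V) (hT : Through R₀ V₀) :
    Through (liftR (algebraMap K F ϖ) R₀) V := sorry

/-- BC6: finiteness at the horizontal primes. -/
theorem lift_fin (H : BCData A₀ ϖ₀ A ϖ e a F₀ F) (hR₀ : IsPt A₀ R₀)
    (hfin : ∀ W : ValuationSubring F₀, Hor K₀ R₀ W → ∃ S : Finset F₀, (∀ s ∈ S, s ∈ R₀) ∧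
      ∀ r ∈ R₀, ∃ c : F₀ → K₀, (∀ s, c s ∈ A₀) ∧
        W.valuation (r - ∑ s ∈ S, algebraMap K₀ F₀ (c s) * s) < 1) :
    ∀ W : ValuationSubring F, Hor K (liftR (algebraMap K F ϖ) R₀) W →
      ∃ S : Finset F, (∀ s ∈ S, s ∈ liftR (algebraMap K F ϖ) R₀) ∧
      ∀ r ∈ liftR (algebraMap K F ϖ) R₀, ∃ c : F → K, (∀ s, c s ∈ A) ∧
        W.valuation (r - ∑ s ∈ S, algebraMap K F (c s) * s) < 1 := sorry

/-- BC7: global regular functions. -/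
theorem lift_reg (H : BCData A₀ ϖ₀ A ϖ e a F₀ F) (hU : IsUnif V₀ (algebraMap K₀ F₀ ϖ₀))
    (hext : Ext V₀ V) (hc : ∀ c ∈ A₀, algebraMap K₀ F₀ c ∈ V₀) {Pts₀ : Set (Subring F₀)}
    (hPts : ∀ R₀ ∈ Pts₀, IsPt A₀ R₀ ∧ ∀ r ∈ R₀, r ∈ V₀)
    (hreg : ∀ f ∈ V₀, (∀ R₀ ∈ Pts₀, ∃ ρ ∈ R₀, V₀.valuation (f - ρ) < 1) →
      ∃ c ∈ A₀, V₀.valuation (f - algebraMap K₀ F₀ c) < 1) :
    ∀ f ∈ V, (∀ R ∈ liftR (algebraMap K F ϖ) '' Pts₀, ∃ ρ ∈ R, V.valuation (f - ρ) < 1) →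
      ∃ c ∈ A, V.valuation (f - algebraMap K F c) < 1 := sorry

/-- BC8a. -/
theorem lift_isSm [CharZero F₀] (H : BCData A₀ ϖ₀ A ϖ e a F₀ F)
    (hU : IsUnif V₀ (algebraMap K₀ F₀ ϖ₀)) (hext : Ext V₀ V) (hS : IsSm A₀ ϖ₀ V₀ R₀) :
    IsSm A ϖ V (liftR (algebraMap K F ϖ) R₀) := sorry

end One

variable {Vi₀ V0₀ : ValuationSubring F₀} {Vi V0 : ValuationSubring F} {x₀ y₀ : F₀}
  {Smi₀ Sm0₀ Nd₀ : Set (Subring F₀)} {e₀ : ℕ}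

/-- BC8b. -/
theorem lift_isNode [CharZero F₀] (H : BCData A₀ ϖ₀ A ϖ e a F₀ F)
    (hUi : IsUnif Vi₀ (algebraMap K₀ F₀ ϖ₀)) (hU0 : IsUnif V0₀ (algebraMap K₀ F₀ ϖ₀))
    (hi : Ext Vi₀ Vi) (h0 : Ext V0₀ V0) {R₀ : Subring F₀} (hN : IsNode A₀ ϖ₀ Vi₀ V0₀ x₀ y₀ R₀) :
    IsNode A ϖ Vi V0 (algebraMap F₀ F x₀) (algebraMap F₀ F y₀) (liftR (algebraMap K F ϖ) R₀) :=
  sorry

/-- BC8: **base change of the nodal model.** -/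
theorem lift_nodalModel [CharZero F₀] (H : BCData A₀ ϖ₀ A ϖ e a F₀ F)
    (M₀ : NodalModel A₀ ϖ₀ e₀ Vi₀ V0₀ x₀ y₀ Smi₀ Sm0₀ Nd₀) (hi : Ext Vi₀ Vi) (h0 : Ext V0₀ V0) :
    NodalModel A ϖ (e₀ * e) Vi V0 (algebraMap F₀ F x₀) (algebraMap F₀ F y₀)
      (liftR (algebraMap K F ϖ) '' Smi₀) (liftR (algebraMap K F ϖ) '' Sm0₀)
      (liftR (algebraMap K F ϖ) '' Nd₀) := sorry

/-- BC9: an automorphism of `F / F₀` moving `ϖ` to depth `c` is a `RamAut`. -/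
theorem lift_ramAut (H : BCData A₀ ϖ₀ A ϖ e a F₀ F)
    (M₀ : NodalModel A₀ ϖ₀ e₀ Vi₀ V0₀ x₀ y₀ Smi₀ Sm0₀ Nd₀) (hi : Ext Vi₀ Vi) (h0 : Ext V0₀ V0)
    (τ : F ≃+* F) (hτ : ∀ z : F₀, τ (algebraMap F₀ F z) = algebraMap F₀ F z) {δ : K} {c : ℕ}
    (hc : 1 ≤ c) (hτϖ : τ (algebraMap K F ϖ) = algebraMap K F (ϖ * (1 + δ)))
    (hδ : A.valuation δ = A.valuation ϖ ^ c) :
    RamAut A ϖ Vi V0 (algebraMap F₀ F x₀)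
      (liftR (algebraMap K F ϖ) '' Smi₀ ∪ liftR (algebraMap K F ϖ) '' Sm0₀ ∪
        liftR (algebraMap K F ϖ) '' Nd₀) τ δ c := sorry

/-- BC9': an automorphism of `F / F₀` acts trivially on the residue fields. -/
theorem lift_aut_trivial (H : BCData A₀ ϖ₀ A ϖ e a F₀ F) {V₀ : ValuationSubring F₀}
    {V : ValuationSubring F} (hU : IsUnif V₀ (algebraMap K₀ F₀ ϖ₀)) (hext : Ext V₀ V)
    (hc : ∀ c ∈ A₀, algebraMap K₀ F₀ c ∈ V₀)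
    (σ : F ≃+* F) (hσ : ∀ z : F₀, σ (algebraMap F₀ F z) = algebraMap F₀ F z)
    (hσϖ : ∃ ϖ' : K, σ (algebraMap K F ϖ) = algebraMap K F ϖ') :
    (∀ z ∈ V, V.valuation (σ z - z) < 1) ∧
      ∀ b : K, ∃ b' : K, σ (algebraMap K F b) = algebraMap K F b' ∧
        A.valuation b' = A.valuation b := sorry

/-- BC10a: the shape at a node descends to `F₀` after reduction. -/
theorem nodeShape_descend (H : BCData A₀ ϖ₀ A ϖ e a F₀ F)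
    (M₀ : NodalModel A₀ ϖ₀ e₀ Vi₀ V0₀ x₀ y₀ Smi₀ Sm0₀ Nd₀) (hi : Ext Vi₀ Vi) {R₀ : Subring F₀}
    (hR₀ : R₀ ∈ Nd₀) {n : ℕ} {u : F} {b : ℤ}
    (h : NodeShape K Vi (algebraMap F₀ F x₀) (liftR (algebraMap K F ϖ) R₀) n u b) :
    ∃ (κ : K) (G₀ r₀ : F₀), κ ≠ 0 ∧ Vi₀.valuation G₀ = 1 ∧ RUnit R₀ r₀ ∧
      Vi.valuation (u / algebraMap K F κ - algebraMap F₀ F (x₀ ^ b * G₀ ^ n * r₀)) < 1 := sorry

/-- BC10b: the shape at a smooth point descends to `F₀` after reduction. -/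
theorem smShape_descend (H : BCData A₀ ϖ₀ A ϖ e a F₀ F) {V₀ : ValuationSubring F₀}
    {V : ValuationSubring F} (hU : IsUnif V₀ (algebraMap K₀ F₀ ϖ₀)) (hext : Ext V₀ V)
    {R₀ : Subring F₀} (hS : IsSm A₀ ϖ₀ V₀ R₀) {n : ℕ} {u : F}
    (h : SmShape K V (liftR (algebraMap K F ϖ) R₀) n u) :
    ∃ (κ : K) (G₀ r₀ : F₀), κ ≠ 0 ∧ V₀.valuation G₀ = 1 ∧ RUnit R₀ r₀ ∧
      V.valuation (u / algebraMap K F κ - algebraMap F₀ F (G₀ ^ n * r₀)) < 1 := sorry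

end Fermat.Agent.S44.Depth

end
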