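/-
S44 / DEPTH, block FIN: SKELETON (statements only).
-/
import Fermat.Agent.S44.Depth.Fin.Defs
import Fermat.Agent.Lib.InertiaField.Defs

set_option autoImplicit false

noncomputable section

namespace Fermat.Agent.S44.Depth

open Fermat.Agent.S18 Fermat.Agent.S36.BP Polynomial IntermediateField

variable {K₀ F : Type*} [Field K₀] [Field F] [Algebra K₀ F]

/-- FIN: the export for LQ-PT. -/
theorem fin_of_hens [CharZero K₀] {A₀ : ValuationSubring K₀} {ϖ₀ : K₀} (hU : IsUnif A₀ ϖ₀)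
    (hH : Hens A₀) (z : F) (htr : Transcendental K₀ z) (hfin : FiniteDimensional K₀⟮z⟯ F)
    (𝔫 : Ideal (chart A₀.toSubring z)) [𝔫.IsPrime]
    (hϖ : ∀ b : chart A₀.toSubring z, (b : F) = algebraMap K₀ F ϖ₀ → b ∈ 𝔫) :
    FinAt A₀ (locSub (chart A₀.toSubring z) 𝔫) := sorry

/-- FIN-H0: abstract criterion for `Hens`. -/
theorem hens_of_conj {Ω : Type*} [Field Ω] [Algebra K₀ Ω] [IsAlgClosed Ω]
    [Algebra.IsAlgebraic K₀ Ω] {A₀ : ValuationSubring K₀} (AΩ : ValuationSubring Ω)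
    (hext : ∀ a : K₀, algebraMap K₀ Ω a ∈ AΩ ↔ a ∈ A₀)
    (hconj : ∀ (σ : Ω ≃ₐ[K₀] Ω) (y : Ω), y ∈ AΩ → σ y ∈ AΩ) : Hens A₀ := sorry

/-- FIN-H: the ring of integers of the inertia field is henselian. -/
theorem hens_A0 (A : ValuationSubring Lib.InertiaField.Qb) :
    Hens (Lib.InertiaField.A0 A) := sorry

end Fermat.Agent.S44.Depth

end
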