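/-
S44 / DEPTH (architect helper219): SKELETON of the instance (statements only).
Blocks: NT (number theory of `K₀(E[p]) / K₀`), GL (function field glue), KS (Kummer side),
TR (translation to orders at places), MD (the model).
-/
import Fermat.Agent.S44.Depth.Inst.Defs
import Fermat.Agent.GAL.KLLevel

set_option autoImplicit false

noncomputable section

namespace Fermat.Agent.S44.Depth.Inst

open ModularCurve AlgebraicCurve Fermat.Agent.S24 Fermat.Agent.GAL Fermat.Agent.S44.X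
  Fermat.Agent.Lib.InertiaField Fermat.Agent.S18.Descent Fermat.Agent.BAD.Bridge
  Fermat.Agent.S28.Export Fermat.Agent.S36.BP Fermat.Agent.BAD.LevelQ.Mod
open Fermat.Agent.S18 (IsUnif)

/-! ## Block NT -/
section NT

variable (A : ValuationSubring S44.Qb) {p : ℕ}

/-- NT-1: a field `L ⊇ K₀` all of whose elements have at most `n` conjugates under inertia is
generated over `K₀` by a root of an Eisenstein polynomial of degree `e ≤ n`. -/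
theorem exists_isEis (hp : p.Prime) (hA : A.LiesOverPrime p) (L : IntermediateField (K0 A) S44.Qb)
    (n : ℕ) (hn : ∀ z ∈ L, ∃ S : Finset S44.Qb, S.card ≤ n ∧ ∀ σ ∈ Iner A, σ z ∈ S) :
    ∃ (ϖ : L) (e : ℕ) (a : ℕ → K0 A), e ≤ n ∧ IsEis (A0 A) (p : K0 A) ϖ e a := sorry

/-- NT-1a -/
theorem finite_of_orbit (L : IntermediateField (K0 A) S44.Qb)
    (n : ℕ) (hn : ∀ z ∈ L, ∃ S : Finset S44.Qb, S.card ≤ n ∧ ∀ σ ∈ Iner A, σ z ∈ S) :
    FiniteDimensional (K0 A) L := sorry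

/-- NT-1b: the integers of `L` are a finite module over `A0 A`. -/
theorem exists_fin_gen (hp : p.Prime) (hA : A.LiesOverPrime p)
    (L : IntermediateField (K0 A) S44.Qb) [FiniteDimensional (K0 A) L] :
    ∃ T : Finset L, ∀ z ∈ AL A L, ∃ c : L → K0 A, (∀ t, c t ∈ A0 A) ∧
      z = ∑ t ∈ T, algebraMap (K0 A) L (c t) * t := sorry

/-- NT-1c: the valuation of `L` is discrete. -/
theorem exists_unif (hp : p.Prime) (hA : A.LiesOverPrime p) (L : IntermediateField (K0 A) S44.Qb)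
    (n : ℕ) (hn : ∀ z ∈ L, ∃ S : Finset S44.Qb, S.card ≤ n ∧ ∀ σ ∈ Iner A, σ z ∈ S) :
    ∃ (ϖ : L) (e : ℕ), 0 < e ∧ IsUnif (AL A L) ϖ ∧
      (AL A L).valuation ϖ ^ e = (AL A L).valuation (p : L) := sorry

/-- NT-O: a root of an Eisenstein polynomial of degree `e` has at least `e` conjugates. -/
theorem le_card_of_isEis (hp : p.Prime) (hA : A.LiesOverPrime p)
    (L : IntermediateField (K0 A) S44.Qb) {ϖ : L} {e : ℕ} {a : ℕ → K0 A}
    (hE : IsEis (A0 A) (p : K0 A) ϖ e a) (S : Finset S44.Qb)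
    (hS : ∀ σ ∈ Iner A, σ (ϖ : S44.Qb) ∈ S) : e ≤ S.card := sorry

/-- NT-2: if `p ∣ e` there is a wild element of inertia. -/
theorem exists_wild (hp : p.Prime) (hA : A.LiesOverPrime p) (L : IntermediateField (K0 A) S44.Qb)
    (hst : ∀ σ ∈ Iner A, ∀ z ∈ L, σ z ∈ L) {ϖ : L} {e : ℕ} {a : ℕ → K0 A}
    (hE : IsEis (A0 A) (p : K0 A) ϖ e a) (hpe : p ∣ e) :
    ∃ τ ∈ Iner A, ∃ (δ : L) (c : ℕ), 1 ≤ c ∧ τ (ϖ : S44.Qb) = ϖ * (1 + δ) ∧
      (AL A L).valuation δ = (AL A L).valuation ϖ ^ c := sorry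

/-- NT-3: the depth of `τ` on the integers of `L`. -/
theorem depth_le (hp : p.Prime) (hA : A.LiesOverPrime p) (L : IntermediateField (K0 A) S44.Qb)
    {ϖ : L} {e : ℕ} {a : ℕ → K0 A} (hE : IsEis (A0 A) (p : K0 A) ϖ e a) {τ : S44.GQ}
    (hτ : τ ∈ Iner A) {δ : L} {c : ℕ} (h1 : τ (ϖ : S44.Qb) = ϖ * (1 + δ))
    (h2 : (AL A L).valuation δ = (AL A L).valuation ϖ ^ c) :
    ∀ z ∈ L, z ∈ A → A.valuation (τ z - z) ≤ A.valuation (ϖ : S44.Qb) ^ (c + 1) := sorry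

/-- NT-4: orbit bound. -/
theorem orbit_bound {X : Type*} [MulAction S44.GQ X] (x₀ : X) (T : Finset X)
    (hT : ∀ σ ∈ Iner A, σ • x₀ ∈ T) (z : S44.Qb)
    (hz : ∀ σ ∈ Iner A, σ • x₀ = x₀ → σ z = z) :
    ∃ S : Finset S44.Qb, S.card ≤ T.card ∧ ∀ σ ∈ Iner A, σ z ∈ S := sorry

/-- NT-5a -/
theorem orbit_Lmu (hp : p.Prime) : ∀ z ∈ Lmu A p,
    ∃ S : Finset S44.Qb, S.card ≤ p - 1 ∧ ∀ σ ∈ Iner A, σ z ∈ S := sorry

/-- NT-5b -/
theorem orbit_LE (P : FreyPackage) (habc : (P.p : ℤ) ∣ P.a * P.b * P.c)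
    (hA : A.LiesOverPrime P.p) : ∀ z ∈ LE P A,
    ∃ S : Finset S44.Qb, S.card ≤ P.p * (P.p - 1) ∧ ∀ σ ∈ Iner A, σ z ∈ S := sorry

/-- NT-6a -/
theorem stable_Lmu : ∀ σ ∈ Iner A, ∀ z ∈ Lmu A p, σ z ∈ Lmu A p := sorry

/-- NT-6b -/
theorem stable_LE (P : FreyPackage) : ∀ σ ∈ Iner A, ∀ z ∈ LE P A, σ z ∈ LE P A := sorry

/-- NT-7: inertia acts non trivially on `μ_p`. -/
theorem exists_moving_mu (hp : p.Prime) (hp3 : 3 ≤ p) (hA : A.LiesOverPrime p) :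
    ∃ σ ∈ Iner A, ∃ m : ℕ, (∀ ζ : S44.Qb, ζ ^ p = 1 → σ ζ = ζ ^ m) ∧ ¬ (p : ℤ) ∣ (m : ℤ) - 1 := sorry

/-- NT-8 -/
theorem root_A0 (hp : p.Prime) (hA : A.LiesOverPrime p) :
    ∀ c ∈ A0 A, ∃ b ∈ A0 A, (A0 A).valuation (c - b ^ p) < 1 := sorry

/-- NT-9: an element of inertia which moves an element of `K₀(E[p])` moves a point of `E[p]`. -/
theorem exists_moved_point (P : FreyPackage) {τ : S44.GQ} (hτ : τ ∈ Iner A) {z : S44.Qb}
    (hz : z ∈ LE P A) (h : τ z ≠ z) : ∃ x : S13.Vp P, τ • x ≠ x := sorry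

end NT

/-! ## Block GL -/
section Glue

variable (K K' : Type*) [Field K] [Field K'] [Algebra ℚ K] [Algebra ℚ K'] [Algebra K S44.Qb]
  [Algebra K' S44.Qb] [Algebra K K'] [IsScalarTower K K' S44.Qb] (N : ℕ)

/-- GL-1 -/
theorem exists_model [Algebra.IsAlgebraic K S44.Qb] (y : FN N)
    (hy : ∀ k : ℤ, (y : LaurentSeries Kbar).coeff k ∈ Set.range (algebraMap K S44.Qb)) :
    ∃ y' : FK K N, bcK K N y' = y := sorry

/-- GL-2 -/
theorem horDiv_of_isKum [NeZero N] [Algebra.IsAlgebraic K S44.Qb] (n : ℕ) (u : FK K N)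
    (hu0 : u ≠ 0) (hu : E.IsKum N n (bcK K N u)) : HorDiv K n u := sorry

/-- GL-3 -/
theorem exists_const_mul_pow [Algebra.IsAlgebraic K S44.Qb] (n : ℕ) (hn : n ≠ 0) (y : FK K N)
    (hy : y ≠ 0) (v : FN N) (hv : bcK K N y = v ^ n) :
    ∃ (c : K) (g : FK K N), c ≠ 0 ∧ g ≠ 0 ∧ y = algebraMap K (FK K N) c * g ^ n := sorry

/-- GL-4 -/
theorem bcK_gal (τK : K ≃+* K) (τ : S44.GQ)
    (h : ∀ z : K, algebraMap K S44.Qb (τK z) = τ (algebraMap K S44.Qb z)) (f : FK K N) :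
    bcK K N (gal τK N f) = E.galF N τ (bcK K N f) := sorry

/-- GL-5 -/
theorem spanF [Algebra.IsAlgebraic K K'] (ϖ : K') (e : ℕ)
    (h : ∀ z : K', ∃ c : ℕ → K, z = esum ϖ e c) :
    letI := algFK K K' N
    ∀ z : FK K' N, ∃ c : ℕ → FK K N, z = esum (algebraMap K' (FK K' N) ϖ) e c := sorry

/-- GL-6 -/
theorem bcK_baseChangeMap (φ : K →+* K')
    (hφ : ∀ z : K, algebraMap K' S44.Qb (φ z) = algebraMap K S44.Qb z) (f : FK K N) :
    bcK K' N (baseChangeMap (modularFunctionFieldFull N) φ f) = bcK K N f := sorry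

/-- GL-7 -/
theorem exists_isGauss (A : ValuationSubring S44.Qb) {p : ℕ} (hp : p.Prime)
    (hA : A.LiesOverPrime p) : ∃ V : ValuationSubring (FK K N), IsGauss A V := sorry

/-- GL-8 -/
theorem ext_of_isGauss (A : ValuationSubring S44.Qb) {V : ValuationSubring (FK K N)}
    {V' : ValuationSubring (FK K' N)} (hV : IsGauss A V) (hV' : IsGauss A V') :
    letI := algFK K K' N
    Ext V V' := sorry

/-- GL-9 -/
theorem gal_baseChangeMap (τ : K' ≃+* K') (φ : K →+* K') (h : ∀ z : K, τ (φ z) = φ z)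
    (f : FK K N) : gal τ N (baseChangeMap (modularFunctionFieldFull N) φ f) =
      baseChangeMap (modularFunctionFieldFull N) φ f := sorry

end Glue

/-! ## Block KS -/
section KS

variable {A : ValuationSubring S44.Qb}

/-- KS-1: descent of a Kummer unit whose class is fixed by `H`. -/
theorem exists_descent (H : Subgroup S44.GQ) (hH : H ≤ Iner A) (N n : ℕ) [NeZero N] (hn : n ≠ 0)
    (U : FN N) (hU0 : U ≠ 0) (hU : E.IsKum N n U)
    (hfix : ∀ σ ∈ H, ∃ h : FN N, E.galF N σ U = U * h ^ n) :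
    ∃ (v : FK (Lf A H hH) N) (g : FN N), v ≠ 0 ∧ g ≠ 0 ∧ HorDiv (Lf A H hH) n v ∧
      bcK (Lf A H hH) N v = U * g ^ n := sorry

variable {P : FreyPackage} {M' : ℕ} [NeZero M'] {W : WeierstrassCurve ℤ}
  {u₀ u₁ : E.kum (M' * P.p) P.p}

/-- KS-2 -/
theorem HE_le_Hmu (hN : NewPair P M' A W u₀ u₁) : HE P A ≤ Hmu A P.p := sorry

/-- KS-3: `gal₀` in terms of functions. -/
theorem gal₀_fn (hN : NewPair P M' A W u₀ u₁) : ∀ σ ∈ Iner A, ∀ m : ℕ,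
    (∀ ζ : S44.Qb, ζ ^ P.p = 1 → σ ζ = ζ ^ m) →
      ∃ h : FN (M' * P.p), E.galF (M' * P.p) σ (fn u₀) = fn u₀ ^ m * h ^ P.p := sorry

/-- KS-4: `gal₁` in terms of functions. -/
theorem gal₁_fn (hN : NewPair P M' A W u₀ u₁) : ∀ σ ∈ Iner A,
    ∃ (k : ℕ) (h : FN (M' * P.p)),
      E.galF (M' * P.p) σ (fn u₁) = fn u₁ * fn u₀ ^ k * h ^ P.p := sorry

/-- KS-5 -/
theorem stab_fn (hN : NewPair P M' A W u₀ u₁) : ∀ σ ∈ HE P A,
    ∃ h : FN (M' * P.p), E.galF (M' * P.p) σ (fn u₁) = fn u₁ * h ^ P.p := sorry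

end KS

/-! ## Block MD -/

/-- `w` is centred at the point `R₀`. -/
def Centred (A : ValuationSubring S44.Qb) (M p : ℕ) (w : Place (kA A) (Fk A M))
    (R₀ : Subring (FK (K0 A) (M * p))) : Prop :=
  ∀ r ∈ R₀, ∀ g : Fk A M,
    Red A ((bcK (K0 A) (M * p) r : FN (M * p)) : LaurentSeries S44.Qb) (g : LaurentSeries (kA A)) →
      0 ≤ w.ord g

/-- **Node ModelD**: what the route DEPTH needs from the model of `X₀(4 M' p)` over `A0 A`. -/
def NodeModelD : Prop :=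
  ∀ (p : ℕ) [NeZero p] (M' : ℕ) [NeZero M'], p.Prime → 5 ≤ p → ¬ p ∣ M' → ∀ hc : Nat.Coprime p 4,
    ∀ A : ValuationSubring S44.Qb, A.LiesOverPrime p →
      ∃ (Vi₀ V0₀ : ValuationSubring (FK (K0 A) (M' * 4 * p))) (x₀ y₀ : FK (K0 A) (M' * 4 * p))
        (Smi Sm0 Nd : Set (Subring (FK (K0 A) (M' * 4 * p)))),
        IsGauss A Vi₀ ∧ NodalModel (A0 A) (p : K0 A) 1 Vi₀ V0₀ x₀ y₀ Smi Sm0 Nd ∧
        (∃ c : S44.Qb, c ≠ 0 ∧
          bcK (K0 A) (M' * 4 * p) x₀ = algebraMap S44.Qb (FN (M' * 4 * p)) c * xU p M' hc) ∧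
        ∀ w : Place (kA A) (Fk A (M' * 4)), ∃ R₀, Centred A (M' * 4) p w R₀ ∧
          ((R₀ ∈ Nd ∧ 0 ≤ w.ord (jk A (M' * 4))) ∨
            (R₀ ∈ Smi ∧ (0 ≤ w.ord (jk A (M' * 4)) → RUnit R₀ x₀)))

/-! ## Block TR -/
section TR

variable {A : ValuationSubring S44.Qb} {p : ℕ} [NeZero p] {M' : ℕ} [NeZero M']
  (L : IntermediateField (K0 A) S44.Qb)

/-- TR-1: translation at a node. -/
theorem tr_node (hR : NodeRed) (hp : p.Prime) (hpM : ¬ p ∣ M') (hc : Nat.Coprime p 4)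
    (hA : A.LiesOverPrime p)
    {Vi₀ : ValuationSubring (FK (K0 A) (M' * 4 * p))} {Vi : ValuationSubring (FK L (M' * 4 * p))}
    (hVi₀ : IsGauss A Vi₀) (hVi : IsGauss A Vi) {x₀ : FK (K0 A) (M' * 4 * p)}
    (hx₀ : Vi₀.valuation x₀ = 1) {c : S44.Qb} (hc0 : c ≠ 0)
    (hx : bcK (K0 A) (M' * 4 * p) x₀ = algebraMap S44.Qb (FN (M' * 4 * p)) c * xU p M' hc)
    {U : FN (M' * p)} {ubar : Fk A M'} (hU : IsRed A U (ubar : LaurentSeries (kA A)))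
    {xbar : Fk A (M' * 4)} (hxb : IsRed A (xU p M' hc) (xbar : LaurentSeries (kA A)))
    {u : FK L (M' * 4 * p)} {g : FN (M' * 4 * p)} (hg : g ≠ 0)
    (hu : bcK L (M' * 4 * p) u = levelIncl (⟨4, by ring⟩ : M' * p ∣ M' * 4 * p) U * g ^ p)
    {w : Place (kA A) (Fk A (M' * 4))} {R₀ : Subring (FK (K0 A) (M' * 4 * p))}
    (hw : Centred A (M' * 4) p w R₀) (hle : ∀ r ∈ R₀, r ∈ Vi₀) {b : ℤ}
    (h : letI := algFK (K0 A) L (M' * 4 * p); RedNode L Vi₀ Vi x₀ R₀ p u b) :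
    (p : ℤ) ∣ w.ord (inclFk A M' 4 ubar) - b * w.ord xbar := sorry

/-- TR-2: translation at a smooth point. -/
theorem tr_sm (hR : NodeRed) (hp : p.Prime) (hpM : ¬ p ∣ M') (hA : A.LiesOverPrime p)
    {Vi₀ : ValuationSubring (FK (K0 A) (M' * 4 * p))} {Vi : ValuationSubring (FK L (M' * 4 * p))}
    (hVi₀ : IsGauss A Vi₀) (hVi : IsGauss A Vi)
    {U : FN (M' * p)} {ubar : Fk A M'} (hU : IsRed A U (ubar : LaurentSeries (kA A)))
    {u : FK L (M' * 4 * p)} {g : FN (M' * 4 * p)} (hg : g ≠ 0)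
    (hu : bcK L (M' * 4 * p) u = levelIncl (⟨4, by ring⟩ : M' * p ∣ M' * 4 * p) U * g ^ p)
    {w : Place (kA A) (Fk A (M' * 4))} {R₀ : Subring (FK (K0 A) (M' * 4 * p))}
    (hw : Centred A (M' * 4) p w R₀) (hle : ∀ r ∈ R₀, r ∈ Vi₀)
    (h : letI := algFK (K0 A) L (M' * 4 * p); RedSm L Vi₀ Vi R₀ p u) :
    (p : ℤ) ∣ w.ord (inclFk A M' 4 ubar) := sorry

/-- TR-3: `x̄` is a unit at the points where `x₀` is a unit. -/
theorem tr_x (hR : NodeRed) (hp : p.Prime) (hpM : ¬ p ∣ M') (hc : Nat.Coprime p 4)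
    (hA : A.LiesOverPrime p)
    {Vi₀ : ValuationSubring (FK (K0 A) (M' * 4 * p))} (hVi₀ : IsGauss A Vi₀)
    {x₀ : FK (K0 A) (M' * 4 * p)} {c : S44.Qb} (hc0 : c ≠ 0)
    (hx : bcK (K0 A) (M' * 4 * p) x₀ = algebraMap S44.Qb (FN (M' * 4 * p)) c * xU p M' hc)
    {xbar : Fk A (M' * 4)} (hxb : IsRed A (xU p M' hc) (xbar : LaurentSeries (kA A)))
    {w : Place (kA A) (Fk A (M' * 4))} {R₀ : Subring (FK (K0 A) (M' * 4 * p))}
    (hw : Centred A (M' * 4) p w R₀) (hle : ∀ r ∈ R₀, r ∈ Vi₀) (h : RUnit R₀ x₀) :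
    w.ord xbar = 0 := sorry

end TR

end Fermat.Agent.S44.Depth.Inst

end
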