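/-
S44 / DEPTH (architect helper219): SKELETON of the abstract main theorem (assembly of the blocks
D = `WIP/Abs.lean` and BC = `WIP/BC.lean`).  WIP: statements only.
-/
import Fermat.Agent.S44.Depth.MainDefs

set_option autoImplicit false

noncomputable section

namespace Fermat.Agent.S44.Depth

open Fermat.Agent.S18 Fermat.Agent.S36.BP

variable {K₀ K₁ K F₀ F₁ F : Type*} [Field K₀] [Field K₁] [Field K] [Field F₀] [Field F₁] [Field F]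
  [Algebra K₀ K₁] [Algebra K₀ K] [Algebra K₀ F₀] [Algebra K₁ F₁] [Algebra K F] [Algebra F₀ F₁]
  [Algebra F₀ F]
  {A₀ : ValuationSubring K₀} {ϖ₀ : K₀} {Vi₀ V0₀ : ValuationSubring F₀} {x₀ y₀ : F₀}
  {Smi₀ Sm0₀ Nd₀ : Set (Subring F₀)}

/-- AM-s: smooth points. -/
theorem depth_smooth [CharZero F₀] {A : ValuationSubring K} {ϖ : K} {e : ℕ} {a : ℕ → K₀}
    (M₀ : NodalModel A₀ ϖ₀ 1 Vi₀ V0₀ x₀ y₀ Smi₀ Sm0₀ Nd₀) (H : BCData A₀ ϖ₀ A ϖ e a F₀ F)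
    {Vi : ValuationSubring F} (hi : Ext Vi₀ Vi) {p : ℕ} (hp : p ≠ 0) {u : F} (hu : u ≠ 0)
    (hd : HorDiv K p u) : ∀ R₀ ∈ Smi₀, RedSm K Vi₀ Vi R₀ p u := sorry

/-- AM-t: the tame case. -/
theorem depth_tame [CharZero F₀] {A : ValuationSubring K} {ϖ : K} {e : ℕ} {a : ℕ → K₀}
    (M₀ : NodalModel A₀ ϖ₀ 1 Vi₀ V0₀ x₀ y₀ Smi₀ Sm0₀ Nd₀) (H : BCData A₀ ϖ₀ A ϖ e a F₀ F)
    {Vi : ValuationSubring F} (hi : Ext Vi₀ Vi) {p : ℕ} (hp : p.Prime) (he : ¬ p ∣ e) {u : F}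
    (hu : u ≠ 0) (hd : HorDiv K p u) :
    ∃ b₀ : ℤ, ∀ R₀ ∈ Nd₀, ∃ b : ℤ, RedNode K Vi₀ Vi x₀ R₀ p u b ∧ (p : ℤ) ∣ b - b₀ := sorry

/-- AM: **the abstract main theorem of the route DEPTH.**
`K₀ ⊆ K₁ ⊆ K` totally ramified, `u₀ ∈ F₁` a toric class (`σ` acts on it by `m ≢ 1`), `τ` a wild
automorphism of `F / F₀` of depth `c` with `c + 1 ≤ v(π)`, `τ u = u · u₀ ^ k · const · h ^ p`. -/
theorem depth_main [CharZero F₀]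
    {A₁ : ValuationSubring K₁} {π : K₁} {e₁ : ℕ} {a₁ : ℕ → K₀}
    {A : ValuationSubring K} {ϖ : K} {e : ℕ} {a : ℕ → K₀}
    (M₀ : NodalModel A₀ ϖ₀ 1 Vi₀ V0₀ x₀ y₀ Smi₀ Sm0₀ Nd₀)
    {p : ℕ} (hp : p.Prime) (hpA : A₀.valuation (p : K₀) < 1)
    (hroot : ∀ c ∈ A₀, ∃ b ∈ A₀, A₀.valuation (c - b ^ p) < 1)
    (H₁ : BCData A₀ ϖ₀ A₁ π e₁ a₁ F₀ F₁) (H : BCData A₀ ϖ₀ A ϖ e a F₀ F) (he : ¬ p ^ 2 ∣ e)
    -- the tower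
    (ι : F₁ →+* F) (ιK : K₁ →+* K)
    (hι₀ : ∀ z : F₀, ι (algebraMap F₀ F₁ z) = algebraMap F₀ F z)
    (hιK : ∀ c : K₁, ι (algebraMap K₁ F₁ c) = algebraMap K F (ιK c))
    -- the toric class
    (σ : F₁ ≃+* F₁) (hσ : ∀ z : F₀, σ (algebraMap F₀ F₁ z) = algebraMap F₀ F₁ z)
    (hσπ : ∃ π' : K₁, σ (algebraMap K₁ F₁ π) = algebraMap K₁ F₁ π')
    {u₀ h₀ : F₁} {cst₀ : K₁} {m : ℕ} (hu₀ : u₀ ≠ 0) (hd₀ : HorDiv K₁ p u₀)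
    (hm : ¬ (p : ℤ) ∣ (m : ℤ) - 1) (hrel₀ : σ u₀ = u₀ ^ m * algebraMap K₁ F₁ cst₀ * h₀ ^ p)
    -- the wild automorphism
    (τ : F ≃+* F) (hτ : ∀ z : F₀, τ (algebraMap F₀ F z) = algebraMap F₀ F z) {δ : K} {c : ℕ}
    (hc : 1 ≤ c) (hτϖ : τ (algebraMap K F ϖ) = algebraMap K F (ϖ * (1 + δ)))
    (hδ : A.valuation δ = A.valuation ϖ ^ c)
    (hBR : A.valuation (ιK π) ≤ A.valuation ϖ ^ (c + 1))
    -- the class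
    {u h : F} {cst : K} {k : ℕ} (hu : u ≠ 0) (hd : HorDiv K p u)
    (hrel : τ u = u * ι u₀ ^ k * algebraMap K F cst * h ^ p)
    {Vi : ValuationSubring F} (hi : Ext Vi₀ Vi) :
    ∃ b₀ : ℤ, ∀ R₀ ∈ Nd₀, ∃ b : ℤ, RedNode K Vi₀ Vi x₀ R₀ p u b ∧ (p : ℤ) ∣ b - b₀ := sorry

end Fermat.Agent.S44.Depth

end
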